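import Fermat.Agent.S35.G.H60.ToricSpec
import Fermat.Agent.A2.Mod.H378.L11
import Fermat.Agent.A2.Mod.H485.Kron
import Fermat.Agent.S37.H400.KronFrob

/-!
# S35, piece (G'), leaf TORIC, sub-leaf NOT-POW (helper986)

`notPow : H60.NotPowStatement A E M q w` : at level `M`, `j` is not a `q`-th power modulo `w`
in the Gauss valuation ring `V∞_M`.

Proof: write `a = U₁ / U₂` and `(a ^ q - j) / w = U₃ / U₄` with integral series, `U₂, U₄`
primitive.  Then `U₁ ^ q U₄ - J U₂ ^ q U₄ = w U₃ U₂ ^ q` as integral series; reducing modulo the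
maximal ideal, `red J = (red U₁ / red U₂) ^ q` in `k((t))`, `char k = q`.  But a `q`-th power has
no term of exponent `-1` (`S37.H400.laurent_pow_char`), while `red J = t⁻¹ + ⋯`.
-/

set_option autoImplicit false
set_option linter.style.haveILetI false
set_option linter.unusedSectionVars false
set_option synthInstance.maxHeartbeats 400000
set_option maxHeartbeats 1600000

noncomputable section

namespace Fermat.Agent.S35.G.H986

open ModularCurve HahnSeries Fermat.Agent.A2.H708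

/-- In characteristic `q`, a `q`-th power in `k((t))` has no term of exponent prime to `q`. -/
theorem coeff_pow_char_of_not_dvd {k : Type*} [CommRing k] (q : ℕ) [Fact q.Prime] [CharP k q]
    (f : LaurentSeries k) {n : ℤ} (hn : ¬ (q : ℤ) ∣ n) : (f ^ q).coeff n = 0 := by
  haveI : NeZero q := ⟨(Fact.out : q.Prime).ne_zero⟩
  have h := S37.H400.laurent_pow_char q f
  rw [h]
  exact qExpand_coeff_of_not_dvd q _ hn

/-- Abstract core of NOT-POW. -/
theorem notPow_core {L : Type*} [Field L] (A : ValuationSubring L) (q : ℕ) [Fact q.Prime]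
    [CharP (IsLocalRing.ResidueField A) q] (w : A) (hw : IsLocalRing.residue A w = 0)
    (hw0 : (w : L) ≠ 0) (J U₁ U₂ U₃ U₄ : LaurentSeries A) (h2 : red A U₂ ≠ 0)
    (h4 : red A U₄ ≠ 0) (hJ : (red A J).coeff (-1) ≠ 0) (a : LaurentSeries L)
    (e₁ : a * incl A U₂ = incl A U₁)
    (e₃ : (a ^ q - incl A J) * (cst (w : L))⁻¹ * incl A U₄ = incl A U₃) : False := by
  have hc : cst (w : L) ≠ 0 := cst_ne_zero hw0
  have key : U₁ ^ q * U₄ - J * U₂ ^ q * U₄ = cstA A w * U₃ * U₂ ^ q := by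
    apply incl_injective A
    simp only [map_sub, map_mul, map_pow, incl_cstA]
    rw [← e₁, ← e₃]
    field_simp
    ring
  have hred := congrArg (red A) key
  simp only [map_sub, map_mul, map_pow, red_cstA, hw, HahnSeries.single_eq_zero, zero_mul]
    at hred
  have h5 : red A U₁ ^ q = red A J * red A U₂ ^ q := by
    have h6 : (red A U₁ ^ q - red A J * red A U₂ ^ q) * red A U₄ = 0 := by
      rw [← hred]; ring
    rcases mul_eq_zero.mp h6 with h7 | h7
    · exact sub_eq_zero.mp h7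
    · exact absurd h7 h4
  have h8 : red A J = (red A U₁ * (red A U₂)⁻¹) ^ q := by
    rw [mul_pow, h5, inv_pow, mul_assoc, mul_inv_cancel₀ (pow_ne_zero _ h2), mul_one]
  have hq : ¬ ((q : ℕ) : ℤ) ∣ (-1 : ℤ) := by
    intro h
    have h1 : ((q : ℕ) : ℤ) ∣ ((1 : ℕ) : ℤ) := by
      simpa using (dvd_neg.mp h)
    have h2 : q ∣ 1 := Int.natCast_dvd_natCast.mp h1
    exact (Fact.out : q.Prime).one_lt.ne' (Nat.dvd_one.mp h2)
  have h9 := coeff_pow_char_of_not_dvd q (red A U₁ * (red A U₂)⁻¹) hq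
  rw [← h8] at h9
  exact hJ h9

variable (A : ValuationSubring A2.Mod.Qb) (E : IntermediateField ℚ A2.Mod.Qb) (M q : ℕ)
  [NeZero M] [NeZero q] (w : A2.Mod.RE A E)

/-- **NOT-POW.** -/
theorem notPow : H60.NotPowStatement A E M q w := by
  intro hS VM hVM a ha hcon
  haveI : Fact q.Prime := ⟨hS.q_prime⟩
  haveI : CharP (IsLocalRing.ResidueField (A2.Mod.RE A E)) q :=
    A2.Mod.H485.charP_residue A E hS.lies_over
  haveI := hS.dvr
  obtain ⟨U₁, U₂, h2, -, e₁⟩ := (hVM a).mp ha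
  obtain ⟨U₃, U₄, h4, -, e₃⟩ := (hVM _).mp hcon
  have hw : IsLocalRing.residue (A2.Mod.RE A E) w = 0 := by
    rw [IsLocalRing.residue_eq_zero_iff]
    exact hS.unif.not_isUnit
  have hw0 : (w : E) ≠ 0 := A2.Mod.H378.w_ne_zero hS
  have hj : ((A2.Mod.jE E M 1 (one_dvd _) : A2.Mod.FE E M) : LaurentSeries E) =
      incl (A2.Mod.RE A E) (jqModC (A2.Mod.RE A E)) := by
    show coeffEmb E (qExpand ℚ 1 jq) = _
    rw [qExpand_one_apply, incl, coeffMap_jqModC, coeffEmb, ← jqModC_rat, coeffMap_jqModC]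
  have hJ : (red (A2.Mod.RE A E) (jqModC (A2.Mod.RE A E))).coeff (-1) ≠ 0 := by
    rw [red, coeffMap_jqModC, coeff_jqModC_neg_one]
    exact one_ne_zero
  refine notPow_core (A2.Mod.RE A E) q w hw hw0 (jqModC (A2.Mod.RE A E)) U₁ U₂ U₃ U₄ h2 h4 hJ
    ((a : A2.Mod.FE E M) : LaurentSeries E) e₁ ?_
  rw [← e₃, ← hj]
  rfl

end Fermat.Agent.S35.G.H986

end
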